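import Mathlib
import Fermat.Agent.LT.T7.H751.FactDownQSpec

/-!
# Row LT, tower T7, leaf T7.L2Q.1.H1.5.7.4 `SuppOutQC751` (registry 2698; helper777)

OFF-MAIN.  No hole.  `suppOutQC777 : H751.SuppOutQC751` VERBATIM vs `H751/FactDownQSpec.lean`
(aa280353, helper751@e9ffa788e), UNCONDITIONAL.

A non-zero `tsum` has a non-zero term: `pureQ298 S f₀ Fr (x⁻¹ γ x r^j) ≠ 0`, so
`x⁻¹ γ x r^j ∈ Out_S`; `r^j` is trivial at the finite places.
No equation lemma of a spec function is realised in this module.
SPARE in the same module: `suppOutC777 K : H558.SuppOutC558 K` (the cubic original, registry 2639),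
VERBATIM vs `H558/FactDownSpec.lean` (8043f526), every number field.
-/

set_option autoImplicit false

open AutomorphicForm IsDedekindDomain NumberField MeasureTheory
open scoped ComplexConjugate

noncomputable section

namespace Fermat.Agent.LT.T7.H777

open Fermat.Agent.LT.H556 Fermat.Agent.LT.H556.A0 Fermat.Agent.LT.T7 Fermat.Agent.LT.T7.H305

attribute [local instance] Fermat.Agent.LT.T5.instMeasurableSpaceG

variable {K : Type} [Field K] [NumberField K]

/-- The component at `v` as the matrix of `finGL305`. -/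
theorem finComp_eq_finGL777 (v : HeightOneSpectrum (𝓞 K)) (g : G K) :
    finComp v g = ((finGL305 v g : GL (Fin 2) (v.adicCompletion K)) :
      Matrix (Fin 2) (Fin 2) (v.adicCompletion K)) := rfl

/-- `finComp` is multiplicative. -/
theorem finComp_mul777 (v : HeightOneSpectrum (𝓞 K)) (g h : G K) :
    finComp v (g * h) = finComp v g * finComp v h := by
  rw [finComp_eq_finGL777, finComp_eq_finGL777, finComp_eq_finGL777, map_mul,
    Matrix.GeneralLinearGroup.coe_mul]

/-- A power of an element which is trivial at `v` is trivial at `v`. -/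
theorem finComp_zpow_of_triv777 (v : HeightOneSpectrum (𝓞 K)) (r : G K) (hr : TrivAtFin v r)
    (m : ℤ) : finComp v (r ^ m) = 1 := by
  have h1 : finGL305 v r = 1 := by
    apply Units.ext
    exact hr
  rw [finComp_eq_finGL777, map_zpow, h1, one_zpow]
  rfl

/-- Right multiplication by a power of the ray generator does not change the finite components. -/
theorem finComp_mul_zpow777 (v : HeightOneSpectrum (𝓞 K)) (r : G K) (hr : TrivAtFin v r)
    (g : G K) (m : ℤ) : finComp v (g * r ^ m) = finComp v g := by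
  rw [finComp_mul777, finComp_zpow_of_triv777 v r hr, mul_one]

/-- Left multiplication by a power of the ray generator does not change the finite components. -/
theorem finComp_zpow_mul777 (v : HeightOneSpectrum (𝓞 K)) (r : G K) (hr : TrivAtFin v r)
    (g : G K) (m : ℤ) : finComp v (r ^ m * g) = finComp v g := by
  rw [finComp_mul777, finComp_zpow_of_triv777 v r hr, one_mul]

/-- `Out_S` is invariant under right multiplication by the powers of an element which is trivial
at the finite places. -/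
theorem outT_of_mul_zpow777 (S : Finset (HeightOneSpectrum (𝓞 K))) (r : G K)
    (hr : ∀ v : HeightOneSpectrum (𝓞 K), TrivAtFin v r) (g : G K) (m : ℤ)
    (h : OutT305 S (g * r ^ m)) : OutT305 S g := by
  intro v hv
  obtain ⟨h1, h2⟩ := h v hv
  refine ⟨fun i j => ?_, fun i j => ?_⟩
  · have e := finComp_mul_zpow777 v r (hr v) g m
    rw [← e]
    exact h1 i j
  · have e : finComp v ((g * r ^ m)⁻¹) = finComp v g⁻¹ := by
      rw [mul_inv_rev, ← zpow_neg, finComp_zpow_mul777 v r (hr v)]
    rw [← e]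
    exact h2 i j

/-- **T7.L2Q.1.H1.5.7.4** `SuppOutQC751`, VERBATIM. -/
theorem suppOutQC777 : Fermat.Agent.LT.T7.H751.SuppOutQC751 := by
  intro r hr S f₀ Fr γ x hne
  have hne' : (∑' m : ℤ, MQ298.pureQ298 S f₀ Fr
      (x⁻¹ * T5.ratG γ * (T5.AdelicAut.id ℚ).onG x * r ^ m)) ≠ 0 := hne
  obtain ⟨m, hm⟩ : ∃ m : ℤ, MQ298.pureQ298 S f₀ Fr
      (x⁻¹ * T5.ratG γ * (T5.AdelicAut.id ℚ).onG x * r ^ m) ≠ 0 := by
    by_contra hall
    apply hne'
    have hz : ∀ m : ℤ, MQ298.pureQ298 S f₀ Fr
        (x⁻¹ * T5.ratG γ * (T5.AdelicAut.id ℚ).onG x * r ^ m) = 0 :=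
      fun m => by_contra fun hm => hall ⟨m, hm⟩
    rw [show (fun m : ℤ => MQ298.pureQ298 S f₀ Fr
        (x⁻¹ * T5.ratG γ * (T5.AdelicAut.id ℚ).onG x * r ^ m)) = fun _ => 0 from funext hz]
    exact tsum_zero
  rw [T5.onG_id] at hm
  have hout : OutT305 S (x⁻¹ * T5.ratG γ * x * r ^ m) := by
    by_contra hno
    apply hm
    exact if_neg hno
  exact outT_of_mul_zpow777 S r hr.1 _ m hout

example : Fermat.Agent.LT.T7.H751.SuppOutQC751 := suppOutQC777

/-- **T7.L2.1 FD.4** `H558.SuppOutC558` (the cubic original of the leaf; SPARE), VERBATIM, for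
every number field. -/
theorem suppOutC777 (K : Type) [Field K] [NumberField K] :
    Fermat.Agent.LT.T7.H558.SuppOutC558 K := by
  intro r hr S f₀ F γ x hne
  have hne' : (∑' m : ℤ, pure305 S f₀ F
      (x⁻¹ * T5.ratG γ * (T5.AdelicAut.id K).onG x * r ^ m)) ≠ 0 := hne
  obtain ⟨m, hm⟩ : ∃ m : ℤ, pure305 S f₀ F
      (x⁻¹ * T5.ratG γ * (T5.AdelicAut.id K).onG x * r ^ m) ≠ 0 := by
    by_contra hall
    apply hne'
    have hz : ∀ m : ℤ, pure305 S f₀ F
        (x⁻¹ * T5.ratG γ * (T5.AdelicAut.id K).onG x * r ^ m) = 0 :=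
      fun m => by_contra fun hm => hall ⟨m, hm⟩
    rw [show (fun m : ℤ => pure305 S f₀ F
        (x⁻¹ * T5.ratG γ * (T5.AdelicAut.id K).onG x * r ^ m)) = fun _ => 0 from funext hz]
    exact tsum_zero
  rw [T5.onG_id] at hm
  have hout : OutT305 S (x⁻¹ * T5.ratG γ * x * r ^ m) := by
    by_contra hno
    apply hm
    exact if_neg hno
  exact outT_of_mul_zpow777 S r hr.1 _ m hout

example (K : Type) [Field K] [NumberField K] : Fermat.Agent.LT.T7.H558.SuppOutC558 K :=
  suppOutC777 K

end Fermat.Agent.LT.T7.H777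

end
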