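import Mathlib
import Fermat.Agent.LT.T7.H563.ProdShapeQSpec
import Fermat.Agent.LT.T3.H681.SatakeShape
import Fermat.Agent.LT.T7.H664.PlacesCore
import Fermat.Agent.LT.T7.H270.UnramCore

/-!
# Row LT, tower T7, leaf T7.L2Q.1.H2b.4.L3 `PQ563.SphProdQC563 F` (helper777, registry row 2970)

OFF-MAIN.  VERBATIM against `LT/T7/H563/ProdShapeQSpec.lean` (helper563@681304ae1, sha256
`110115a8f6c324c9`).  ADDITIVE (new names only, all suffixed `777`).

    sphProdQC777 (F) : PQ563.SphProdQC563 F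

Proof.  At a place `v ∈ T ∖ T₀` the components of the products are the convolutions
(`T6.IsConv (InU 0)`) of the components of the two triples, extended by the unit `1_{GL₂(𝒪)}`.
* The convolution of two spherical functions is spherical and its Satake transform is the product
  (`sphConv777`; T3 asset of helper681: `sph_pair681`, `conv_pair_coef681`,
  `exists_sph_of_biinv681`, `sph_sum_eq_laurent681`, `laurent_convCoef681`).
* The unit is spherical with Satake transform `1` (`unitSph777`).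
* `N w = (N v)²` at an unramified place with one place over it, `N w = N v` at a place with two
  places over it (`PlacesCore` of helper664); the places outside `T₀` are unramified
  (`UnramCore` of helper270: only `3` ramifies in `ℚ(√-3)`).
-/

set_option autoImplicit false
set_option linter.unusedSectionVars false
set_option linter.unusedVariables false

open AutomorphicForm IsDedekindDomain NumberField MeasureTheory

noncomputable section

namespace Fermat.Agent.LT.T7.H777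

open Fermat.Agent.LT.H556 Fermat.Agent.LT.H556.A0 Fermat.Agent.LT.T7 Fermat.Agent.LT.T7.H305
  Fermat.Agent.LT.T7.H893

/-! ## 1. Convolution of spherical functions (local, at a finite place of a number field) -/

section Local

open Fermat.Agent.LT.T6 Fermat.Agent.LT.T6.H305 Fermat.Agent.LT.T3.AS Fermat.Agent.LT.T3.H263
  Fermat.Agent.LT.T3.H681

variable {K : Type} [Field K] [NumberField K]

/-- The Satake transform in the form of `H893.satT893` (by definition). -/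
theorem satT_def777 (q : ℕ) (A : (ℤ × ℤ) →₀ ℂ) (x y : ℂ) :
    satT893 q A x y = A.sum fun lam c => c * satake q lam x y := rfl

/-- **The convolution of two spherical functions is spherical, and its Satake transform is the
product.** -/
theorem sphConv777 (v : HeightOneSpectrum (𝓞 K)) (A₁ A₂ : (ℤ × ℤ) →₀ ℂ)
    (h₁ : IsDominant A₁) (h₂ : IsDominant A₂)
    (φ ψ χ : GL (Fin 2) (v.adicCompletion K) → ℂ)
    (hφ : ∀ g, φ g = A₁ (cartan g)) (hψ : ∀ g, ψ g = A₂ (cartan g))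
    (hc : IsConv (InU 0) φ ψ χ) :
    ∃ A : (ℤ × ℤ) →₀ ℂ, IsDominant A ∧ (∀ g, χ g = A (cartan g)) ∧
      ∀ x y : ℂ, x ≠ 0 → y ≠ 0 →
        satT893 (Ideal.absNorm v.asIdeal) A x y
          = satT893 (Ideal.absNorm v.asIdeal) A₁ x y
            * satT893 (Ideal.absNorm v.asIdeal) A₂ x y := by
  have eφ : φ = fun g => A₁ (cartan g) := funext hφ
  have eψ : ψ = fun g => A₂ (cartan g) := funext hψ
  obtain ⟨B₁, hB₁, hp₁, hL₁⟩ := sph_pair681 v A₁ h₁
  obtain ⟨B₂, hB₂, hp₂, hL₂⟩ := sph_pair681 v A₂ h₂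
  rw [← eφ] at hp₁
  rw [← eψ] at hp₂
  have hpair : IsSatakePair v χ (convCoef681 B₁ B₂) :=
    conv_pair_coef681 v φ ψ χ B₁ B₂ hB₁.1 hB₂.1 hp₁.bi_inv hp₁.fin_supp hp₁.eigen
      hp₂.bi_inv hp₂.fin_supp hp₂.eigen hc
  obtain ⟨D, hD⟩ := exists_resData (Fermat.Agent.LT.T6.H176.instLocalC176 K v)
  obtain ⟨R, hR⟩ := hpair.fin_supp
  obtain ⟨A, hA, e⟩ := exists_sph_of_biinv681 D (linv_of_biInt681 v hpair.bi_inv)
    (rinv_of_biInt681 v hpair.bi_inv) R ((isRepSys_iff263 v χ R).1 hR)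
  refine ⟨A, hA, fun g => congrFun e g, fun x y hx hy => ?_⟩
  have heig : HasSatakeEigen v (fun g => A (cartan g)) (convCoef681 B₁ B₂) := by
    rw [← e]
    exact hpair.eigen
  rw [satT_def777, satT_def777, satT_def777,
    sph_sum_eq_laurent681 v A hA (convCoef681 B₁ B₂) heig x y hx hy,
    laurent_convCoef681 B₁ B₂ hB₁.1 hB₂.1 x y hx hy, hL₁ x y hx hy, hL₂ x y hx hy]

end Local

/-! ## 2. The unit -/

section Unit

open Fermat.Agent.LT.T6 Fermat.Agent.LT.T6.H305 Fermat.Agent.LT.T3.H263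
  Fermat.Agent.LT.T3.H681

variable {k : Type} [Field k] [Valued k Γ₀]

/-- `GL₂(𝒪)` is the Cartan class `(0, 0)`. -/
theorem inU_zero_iff_cartan777 (g : GL (Fin 2) k) : InU 0 g ↔ cartan g = (0, 0) := by
  rw [inU_zero_iff, inK_iff, cartan_iff_log681]
  have hL := log_det_le681 g
  constructor
  · rintro ⟨h1, h2⟩
    have e1 : WithZero.log (Valued.v (g : Matrix (Fin 2) (Fin 2) k).det) = 0 := by
      rw [h2, WithZero.log_one]
    have e2 : entryMax g ≤ 1 := (entryMax_le_iff g 1).2 h1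
    have e3 : WithZero.log (entryMax g) ≤ 0 := by
      have := (WithZero.log_le_log (entryMax_ne_zero g) one_ne_zero).2 e2
      rwa [WithZero.log_one] at this
    constructor <;> omega
  · rintro ⟨h1, h2⟩
    have e1 : WithZero.log (entryMax g) = 0 := by omega
    have e2 : WithZero.log (Valued.v (g : Matrix (Fin 2) (Fin 2) k).det) = 0 := by omega
    have e3 : entryMax g = 1 := by
      rw [← WithZero.exp_log (entryMax_ne_zero g), e1, WithZero.exp_zero]
    have e4 : Valued.v (g : Matrix (Fin 2) (Fin 2) k).det = 1 := by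
      rw [← WithZero.exp_log (val_det_ne_zero g), e2, WithZero.exp_zero]
    refine ⟨fun i j => ?_, e4⟩
    rw [← e3]
    exact le_entryMax g i j

/-- The coefficients of the unit. -/
def unitCoef777 : (ℤ × ℤ) →₀ ℂ := Finsupp.single ((0, 0) : ℤ × ℤ) (1 : ℂ)

theorem unitCoef_dom777 : IsDominant unitCoef777 := by
  intro lam hlam
  have h := Finsupp.support_single_subset hlam
  rw [Finset.mem_singleton] at h
  rw [h]

/-- The unit `1_{GL₂(𝒪)}` is spherical. -/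
theorem unitSph777 : IsSphFn893 (unitFn893 0 : GL (Fin 2) k → ℂ) unitCoef777 := by
  refine ⟨unitCoef_dom777, fun x => ?_⟩
  by_cases h : InU 0 x
  · have e1 : (unitFn893 0 : GL (Fin 2) k → ℂ) x = 1 := if_pos h
    have e2 : cartan x = (0, 0) := (inU_zero_iff_cartan777 x).1 h
    rw [e1, e2]
    exact (Finsupp.single_eq_same).symm
  · have e1 : (unitFn893 0 : GL (Fin 2) k → ℂ) x = 0 := if_neg h
    have e2 : cartan x ≠ (0, 0) := fun hc => h ((inU_zero_iff_cartan777 x).2 hc)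
    rw [e1]
    exact (Finsupp.single_eq_of_ne e2).symm

/-- The Satake transform of the unit is `1`. -/
theorem satT_unit777 (q : ℕ) (x y : ℂ) : satT893 q unitCoef777 x y = 1 := by
  show (Finsupp.single ((0, 0) : ℤ × ℤ) (1 : ℂ)).sum
    (fun lam c => c * satake q lam x y) = 1
  rw [Finsupp.sum_single_index (by rw [zero_mul])]
  show (1 : ℂ) * ((x * y) ^ (0 : ℤ) * satPoly q x y ((0 : ℤ) - 0).toNat) = 1
  rw [zpow_zero, sub_zero, Int.toNat_zero, satPoly_zero, mul_one, mul_one]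

end Unit

/-! ## 3. The spherical shape at ONE place -/

section At

variable {F : Type} [Field F] [NumberField F]

/-- The clauses of `H893.SphOut893 2` at the place `v` (by definition). -/
def SphAt777 (v : HeightOneSpectrum (𝓞 ℚ))
    (X : GL (Fin 2) (v.adicCompletion ℚ) → ℂ)
    (Y : ∀ w : HeightOneSpectrum (𝓞 F), GL (Fin 2) (w.adicCompletion F) → ℂ) : Prop :=
  ∃ (A : HeightOneSpectrum (𝓞 F) → (ℤ × ℤ) →₀ ℂ) (Av : (ℤ × ℤ) →₀ ℂ),
    IsSphFn893 X Av ∧
    (∀ w : HeightOneSpectrum (𝓞 F), PlaceOver ℚ F v w → IsSphFn893 (Y w) (A w)) ∧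
    (∀ w : HeightOneSpectrum (𝓞 F), PlaceOver ℚ F v w →
      (∀ w' : HeightOneSpectrum (𝓞 F), PlaceOver ℚ F v w' → w' = w) →
      T6.IsBC 2 (Ideal.absNorm v.asIdeal) (A w) Av) ∧
    ∀ w : ℕ → HeightOneSpectrum (𝓞 F), (∀ j : ℕ, PlaceOver ℚ F v (w j)) →
      (∀ j j' : ℕ, j < 2 → j' < 2 → w j = w j' → j = j') →
      ∀ x y : ℂ, x ≠ 0 → y ≠ 0 →
        satT893 (Ideal.absNorm v.asIdeal) Av x y
          = ∏ j ∈ Finset.range 2, satT893 (Ideal.absNorm v.asIdeal) (A (w j)) x y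

theorem sphOut_iff777 (T₀ T : Finset (HeightOneSpectrum (𝓞 ℚ)))
    (φ₀ : ∀ w : HeightOneSpectrum (𝓞 F), GL (Fin 2) (w.adicCompletion F) → ℂ)
    (f₀ : ∀ v : HeightOneSpectrum (𝓞 ℚ), GL (Fin 2) (v.adicCompletion ℚ) → ℂ) :
    SphOut893 (K := ℚ) (K' := F) 2 T₀ T φ₀ f₀ ↔ ∀ v ∈ T, v ∉ T₀ → SphAt777 v (f₀ v) φ₀ :=
  Iff.rfl

/-- The unit components are spherical and matched. -/
theorem sphAt_unit777 (v : HeightOneSpectrum (𝓞 ℚ)) :
    SphAt777 (F := F) v (unitFn893 0) (fun _ => unitFn893 0) := by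
  refine ⟨fun _ => unitCoef777, unitCoef777, unitSph777, fun w _ => unitSph777,
    fun w _ _ x y _ _ => ?_, fun w _ _ x y _ _ => ?_⟩
  · have e1 := satT_unit777 (Ideal.absNorm v.asIdeal) x y
    have e2 := satT_unit777 (Ideal.absNorm v.asIdeal ^ 2) (x ^ 2) (y ^ 2)
    rw [satT_def777] at e1 e2
    rw [e1, e2]
  · show satT893 (Ideal.absNorm v.asIdeal) unitCoef777 x y
      = ∏ j ∈ Finset.range 2, satT893 (Ideal.absNorm v.asIdeal) unitCoef777 x y
    rw [satT_unit777, Finset.prod_const_one]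

/-- **The products of spherical matched components are spherical and matched.** -/
theorem sphAt_conv777 (hfin : Module.finrank ℚ F = 2) (v : HeightOneSpectrum (𝓞 ℚ))
    (hunr : ∀ w : HeightOneSpectrum (𝓞 F), PlaceOver ℚ F v w →
      ∃ x : 𝓞 ℚ, x ∈ v.asIdeal ∧ algebraMap (𝓞 ℚ) (𝓞 F) x ∉ w.asIdeal ^ 2)
    (X₁ X₂ X : GL (Fin 2) (v.adicCompletion ℚ) → ℂ)
    (Y₁ Y₂ Y : ∀ w : HeightOneSpectrum (𝓞 F), GL (Fin 2) (w.adicCompletion F) → ℂ)
    (h₁ : SphAt777 v X₁ Y₁) (h₂ : SphAt777 v X₂ Y₂)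
    (hX : T6.IsConv (T6.InU 0) X₁ X₂ X)
    (hY : ∀ w : HeightOneSpectrum (𝓞 F), PlaceOver ℚ F v w →
      T6.IsConv (T6.InU 0) (Y₁ w) (Y₂ w) (Y w)) :
    SphAt777 v X Y := by
  obtain ⟨A₁, Av₁, s₁, u₁, i₁, p₁⟩ := h₁
  obtain ⟨A₂, Av₂, s₂, u₂, i₂, p₂⟩ := h₂
  obtain ⟨Av, hAv, eAv, mAv⟩ := sphConv777 v Av₁ Av₂ s₁.1 s₂.1 X₁ X₂ X s₁.2 s₂.2 hX
  have hex : ∀ w : HeightOneSpectrum (𝓞 F), ∃ Aw : (ℤ × ℤ) →₀ ℂ, PlaceOver ℚ F v w →
      (T6.IsDominant Aw ∧ (∀ g, Y w g = Aw (T6.cartan g)) ∧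
        ∀ x y : ℂ, x ≠ 0 → y ≠ 0 →
          satT893 (Ideal.absNorm w.asIdeal) Aw x y
            = satT893 (Ideal.absNorm w.asIdeal) (A₁ w) x y
              * satT893 (Ideal.absNorm w.asIdeal) (A₂ w) x y) := by
    intro w
    by_cases hw : PlaceOver ℚ F v w
    · obtain ⟨Aw, h1, h2, h3⟩ := sphConv777 w (A₁ w) (A₂ w) (u₁ w hw).1 (u₂ w hw).1
        (Y₁ w) (Y₂ w) (Y w) (u₁ w hw).2 (u₂ w hw).2 (hY w hw)
      exact ⟨Aw, fun _ => ⟨h1, h2, h3⟩⟩
    · exact ⟨0, fun h => absurd h hw⟩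
  choose A hA using hex
  refine ⟨A, Av, ⟨hAv, eAv⟩, fun w hw => ⟨(hA w hw).1, (hA w hw).2.1⟩, ?_, ?_⟩
  · -- the inert clause
    intro w hw huniq x y hx hy
    have hq : Ideal.absNorm w.asIdeal = Ideal.absNorm v.asIdeal ^ 2 := by
      rw [H664.absNorm_eq664 v w hw, H664.inertia_of_unique664 hw (hunr w hw) huniq, hfin]
    have e1 := i₁ w hw huniq x y hx hy
    have e2 := i₂ w hw huniq x y hx hy
    have e3 := (hA w hw).2.2 (x ^ 2) (y ^ 2) (pow_ne_zero 2 hx) (pow_ne_zero 2 hy)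
    have e4 := mAv x y hx hy
    rw [hq] at e3
    rw [satT_def777, satT_def777, satT_def777] at e3 e4
    rw [e4, e1, e2, e3]
  · -- the split clause
    intro w hw hinj x y hx hy
    have hq : ∀ j : ℕ, Ideal.absNorm (w j).asIdeal = Ideal.absNorm v.asIdeal := by
      intro j
      have hinj' : ∀ a b : ℕ, a < Module.finrank ℚ F → b < Module.finrank ℚ F →
          w a = w b → a = b := by
        rw [hfin]
        exact hinj
      rw [H664.absNorm_eq664 v (w j) (hw j),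
        (H664.inertia_of_split664 (hw j) w hw hinj').1, pow_one]
    rw [mAv x y hx hy, p₁ w hw hinj x y hx hy, p₂ w hw hinj x y hx hy,
      ← Finset.prod_mul_distrib]
    refine Finset.prod_congr rfl (fun j _ => ?_)
    have e := (hA (w j) (hw j)).2.2 x y hx hy
    rw [hq j] at e
    exact e.symm

end At

/-! ## 4. The leaf -/

section Leaf

variable {F : Type} [Field F] [NumberField F]

/-- The places outside the level are unramified in `F = ℚ(√-3)` (the argument of helper270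
`unramQC270`, in the context of the leaf). -/
theorem unram_out777 {Φ : HeckeEigensystem F ℂ} {B : L2Q.H60.L2QBase F} {𝔫 : Ideal (𝓞 ℚ)}
    {T₀ : Finset (HeightOneSpectrum (𝓞 ℚ))}
    (hs : HasSqrtNegThree F) (hq : IsImagQuad F) (hB : L2Q.H60.IsL2QBase Φ B)
    (hR : L2Q.H60.IsRamQ60 B)
    (hT₀ : ∀ v : HeightOneSpectrum (𝓞 ℚ), v ∈ T₀ ↔ v.asIdeal ∣ 𝔫)
    (hS' : ∀ w : HeightOneSpectrum (𝓞 F), w ∈ B.S' ↔ w.asIdeal ∣ upI (K' := F) 𝔫)
    (v : HeightOneSpectrum (𝓞 ℚ)) (hv : v ∉ T₀)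
    (w : HeightOneSpectrum (𝓞 F)) (hvw : PlaceOver ℚ F v w) :
    ∃ x : 𝓞 ℚ, x ∈ v.asIdeal ∧ algebraMap (𝓞 ℚ) (𝓞 F) x ∉ w.asIdeal ^ 2 := by
  obtain ⟨p, hp, hpv⟩ := H732.exists_prime_mem_place732 v
  have hpw : ((p : ℕ) : 𝓞 F) ∈ w.asIdeal := H732.natCast_mem_of_placeOver732 hvw hpv
  have hwS : w ∉ B.S' := by
    intro hw
    have hdvd : w.asIdeal ∣ upI (K' := F) 𝔫 := (hS' w).1 hw
    have hle : upI (K' := F) 𝔫 ≤ w.asIdeal := Ideal.le_of_dvd hdvd
    apply hv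
    rw [hT₀ v, Ideal.dvd_iff_le]
    intro x hx
    have hxw : algebraMap (𝓞 ℚ) (𝓞 F) x ∈ w.asIdeal := hle (Ideal.mem_map_of_mem _ hx)
    exact (hvw x (algebraMap (𝓞 ℚ) (𝓞 F) x) rfl).2 hxw
  have hp3 : p ≠ 3 := by
    intro h3
    have h3S : p ∈ B.S := by
      rw [h3]
      exact hR
    exact hwS (L2Q.H60.full_of_isL2QBase60 hB p hp h3S w hpw)
  refine ⟨((p : ℕ) : 𝓞 ℚ), hpv, ?_⟩
  rw [map_natCast]
  exact H270.natCast_not_mem_sq270 hs hq.1 hq.2 w.asIdeal w.isPrime p hp hp3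

/-- A factor: the component of a triple with the spherical shape, extended by the unit. -/
theorem sphAt_factor777 (T₀ T' : Finset (HeightOneSpectrum (𝓞 ℚ)))
    (φ' : ∀ w : HeightOneSpectrum (𝓞 F), GL (Fin 2) (w.adicCompletion F) → ℂ)
    (f' : ∀ v : HeightOneSpectrum (𝓞 ℚ), GL (Fin 2) (v.adicCompletion ℚ) → ℂ)
    (h : SphOut893 (K := ℚ) (K' := F) 2 T₀ T' φ' f')
    (v : HeightOneSpectrum (𝓞 ℚ)) (hv : v ∉ T₀) (d : Decidable (v ∈ T')) :
    SphAt777 v (if v ∈ T' then f' v else unitFn893 0)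
      (fun w => if v ∈ T' then φ' w else unitFn893 0) := by
  by_cases hm : v ∈ T'
  · have e1 : (if v ∈ T' then f' v else unitFn893 0) = f' v := if_pos hm
    have e2 : (fun w : HeightOneSpectrum (𝓞 F) =>
        if v ∈ T' then φ' w else (unitFn893 0 : GL (Fin 2) (w.adicCompletion F) → ℂ)) = φ' :=
      funext fun w => if_pos hm
    rw [e1, e2]
    exact h v hm hv
  · have e1 : (if v ∈ T' then f' v else unitFn893 0) = unitFn893 0 := if_neg hm
    have e2 : (fun w : HeightOneSpectrum (𝓞 F) =>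
        if v ∈ T' then φ' w else (unitFn893 0 : GL (Fin 2) (w.adicCompletion F) → ℂ))
        = fun _ => unitFn893 0 :=
      funext fun w => if_neg hm
    rw [e1, e2]
    exact sphAt_unit777 v

/-- **LEAF T7.L2Q.1.H2b.4.L3 = SPH-PROD over `ℚ`** (`PQ563.SphProdQC563 F`, VERBATIM). -/
theorem sphProdQC777 (F : Type) [Field F] [NumberField F] : PQ563.SphProdQC563 F := by
  intro Φ B g 𝔫 μr μc c T₀ n n₀ m H' z' H z t lam k j T φ₀ Φ' f₀ F0 F1 hyp
  obtain ⟨hctx, hsys, -, -, -, hprod⟩ := hyp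
  obtain ⟨T₁, T₂, φ₁, Φ₁, f₁, F0₁, F1₁, φ₂, Φ₂, f₂, F0₂, F1₂, hT, hT₁, hT₂, hA, hB, -, -, -, -,
    hout, -⟩ := hprod
  obtain ⟨-, -, hS₁, -⟩ := hA
  obtain ⟨-, -, -, -, hS₂, -⟩ := hB
  have hfin : Module.finrank ℚ F = 2 := H270.finrank_eq_two270 hctx.quad.1 hctx.quad.2
  intro v hvT hv0
  obtain ⟨hX, hY⟩ := hout v hvT hv0
  have hunr := unram_out777 hctx.sqrt hctx.quad hctx.base hctx.ram hctx.mem_T₀ hsys.mem_S'_g v hv0
  exact sphAt_conv777 hfin v hunr _ _ _ _ _ _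
    (sphAt_factor777 T₀ T₁ φ₁ f₁ hS₁ v hv0 _) (sphAt_factor777 T₀ T₂ φ₂ f₂ hS₂ v hv0 _) hX hY

end Leaf

end Fermat.Agent.LT.T7.H777

end
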